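import Mathlib
import Fermat.Agent.S41.Spec.PD
import Fermat.Agent.S21.H585.LowerBound

/-!
# Row S41, blocks PD + LIFT — the assembly from the leaves of `Spec/PD.lean` (helper462)

Everything here is CONDITIONAL on leaf statements of `Spec/PD.lean` (taken as hypotheses, exact `Spec`
shapes); nothing is left open.  Imports: Mathlib, `Spec/PD.lean`, `S21/H585/LowerBound` only.

* `maninPairingEq_of`        (A1) : D2'' → D2 → D4 → LA-2 → `Spec.ManinPairingEqStatement`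
* `maninPairingPD_of`        (A2) : A1 → D1 → D2' → D2'' → D3 → D3' → D4 → LA-1 → LA-2 → LA-3 →
                                    `Spec.ManinPairingPDStatement`
* `maninPairingResCores_of`  (A3) : A1 → D1 → D4 → TR-1 → TR-2 → TR-3 → `Spec.ManinPairingResCoresStatement`
* `maninPairingBeta_of`      (A4) : A1 → D1 → D4 → HEIS → HEIS-U → CUSP-1 → CUSP-2 → CUSP-3 →
                                    `Spec.ManinPairingBetaStatement`
* `maninPairingConjDelta_of` (A5) : A4 → D1 → D4 → HEIS → CUSP-1 → CUSP-2 → CUSP-4 →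
                                    `Spec.ManinPairingConjDeltaStatement`
* `pd_of`                         : A2 → A3 → A5 → TR-4 → `Spec.PDStatement`
* `pd_of_leaves`                  : the 20 leaves ⇒ `Spec.PDStatement`
* `lift_of`                       : D1 → D2' → D2'' → D3 → D3' → D4 → LA-4 → `Spec.LiftStatement`

Unconditional by-products: `neg_one_mem_gamma0Delta`, `gamma0Delta_finiteIndex` (`Γ(N q) ≤ Γ'`),
`conjDeltaEquiv : Γ₀(N q) ≃* Γ'`, `conjDelta_eq_comp`, `trace_conjDeltaR`,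
`maninForm_eq_zero_of_invariantSum`, `heisLift_conj`.

(`PDAsmHecke.lean` : `pdHeckeOfPD : Spec.PDHeckeOfPDStatement`, `pdHecke_of_leaves`.)
-/

set_option autoImplicit false

namespace Fermat.Agent.S41.H462

open CongruenceSubgroup Matrix.SpecialLinearGroup ModularCurve.Period ModularGroup
open Fermat.Agent.S41.Spec
open scoped MatrixGroups

universe u

/-! ## 0. Elementary facts about the Manin model -/

section Action

variable {Γ : Subgroup SL(2, ℤ)}

theorem smul_S_S (hneg : (-1 : SL(2, ℤ)) ∈ Γ) (x : SL(2, ℤ) ⧸ Γ) : S • S • x = x := by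
  rw [← mul_smul, Fermat.Agent.S21.H585.S_mul_S_eq_neg_one,
    Fermat.Agent.S21.H585.neg_one_smul_quot hneg]

theorem smul_S_T (x : SL(2, ℤ) ⧸ Γ) : S • T • x = (S * T) • x := (mul_smul S T x).symm

theorem smul_S_ST (hneg : (-1 : SL(2, ℤ)) ∈ Γ) (x : SL(2, ℤ) ⧸ Γ) : S • (S * T) • x = T • x := by
  rw [mul_smul, smul_S_S hneg]

/-- The permutation of `X` induced by `g`. -/
def permOf (Γ : Subgroup SL(2, ℤ)) (g : SL(2, ℤ)) : Equiv.Perm (SL(2, ℤ) ⧸ Γ) :=
  MulAction.toPerm g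

@[simp] theorem permOf_apply (g : SL(2, ℤ)) (x : SL(2, ℤ) ⧸ Γ) : permOf Γ g x = g • x := rfl

end Action

section Form

variable (Γ : Subgroup SL(2, ℤ)) [Γ.FiniteIndex] {R : Type*} [CommRing R]

/-- The `Fintype` structure on `X` used throughout. -/
noncomputable abbrev fintypeQuot : Fintype (SL(2, ℤ) ⧸ Γ) :=
  Subgroup.fintypeQuotientOfFiniteIndex

theorem maninForm_add_left (m₁ m₂ e' : SL(2, ℤ) ⧸ Γ → R) :
    maninForm Γ (m₁ + m₂) e' = maninForm Γ m₁ e' + maninForm Γ m₂ e' := by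
  let _ := fintypeQuot Γ
  rw [maninForm_eq_sum, maninForm_eq_sum, maninForm_eq_sum, ← Finset.sum_add_distrib]
  refine Finset.sum_congr rfl fun x _ => ?_
  simp only [Pi.add_apply]
  ring

theorem maninForm_sub_left (m₁ m₂ e' : SL(2, ℤ) ⧸ Γ → R) :
    maninForm Γ (m₁ - m₂) e' = maninForm Γ m₁ e' - maninForm Γ m₂ e' := by
  let _ := fintypeQuot Γ
  rw [maninForm_eq_sum, maninForm_eq_sum, maninForm_eq_sum, ← Finset.sum_sub_distrib]
  refine Finset.sum_congr rfl fun x _ => ?_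
  simp only [Pi.sub_apply]
  ring

theorem maninForm_sub_right (m e₁ e₂ : SL(2, ℤ) ⧸ Γ → R) :
    maninForm Γ m (e₁ - e₂) = maninForm Γ m e₁ - maninForm Γ m e₂ := by
  let _ := fintypeQuot Γ
  rw [maninForm_eq_sum, maninForm_eq_sum, maninForm_eq_sum, ← Finset.sum_sub_distrib]
  refine Finset.sum_congr rfl fun x _ => ?_
  simp only [Pi.sub_apply]
  ring

theorem maninForm_smul_left (c : R) (m e' : SL(2, ℤ) ⧸ Γ → R) :
    maninForm Γ (fun x => c * m x) e' = c * maninForm Γ m e' := by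
  let _ := fintypeQuot Γ
  rw [maninForm_eq_sum, maninForm_eq_sum, Finset.mul_sum]
  refine Finset.sum_congr rfl fun x _ => ?_
  ring

omit [Γ.FiniteIndex] in
/-- `∑ₓ n x * (k (g • x) - k x) = 0` for a `g`-invariant function `n`. -/
theorem sum_mul_cobd_eq_zero [Fintype (SL(2, ℤ) ⧸ Γ)] (g : SL(2, ℤ)) (n k : SL(2, ℤ) ⧸ Γ → R)
    (hn : ∀ x, n (g • x) = n x) :
    ∑ x : SL(2, ℤ) ⧸ Γ, n x * (k (g • x) - k x) = 0 := by
  have h1 : ∑ x : SL(2, ℤ) ⧸ Γ, n x * k (g • x) = ∑ x : SL(2, ℤ) ⧸ Γ, n x * k x := by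
    rw [← Equiv.sum_comp (MulAction.toPerm g) (fun x => n x * k x)]
    refine Finset.sum_congr rfl fun x _ => ?_
    show n x * k (g • x) = n (g • x) * k (g • x)
    rw [hn]
  simp only [mul_sub, Finset.sum_sub_distrib, h1, sub_self]

variable {Γ}

omit [Γ.FiniteIndex] in
/-- For parabolic data `(m', e')`: `e' - e'|S = k|U⁻¹ - k` with `k = m' - e'`; in the form
`e' (U • y) - e' (S • U • y) = k y - k (U • y)`. -/
theorem parData_cobd_eq (hneg : (-1 : SL(2, ℤ)) ∈ Γ) {m' e' : SL(2, ℤ) ⧸ Γ → R}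
    (h : IsParData Γ m' e') (y : SL(2, ℤ) ⧸ Γ) :
    e' ((S * T) • y) - e' (S • (S * T) • y) =
      (m' y - e' y) - (m' ((S * T) • y) - e' ((S * T) • y)) := by
  rw [smul_S_ST hneg]
  have := h y
  linear_combination -this

/-- `M^S + M^{ST}` is orthogonal to `e' - e'|S` for parabolic data `(m', e')`. -/
theorem maninForm_eq_zero_of_invariantSum (hneg : (-1 : SL(2, ℤ)) ∈ Γ)
    {n m' e' : SL(2, ℤ) ⧸ Γ → R} (hn : IsInvariantSum Γ n) (h : IsParData Γ m' e') :
    maninForm Γ n e' = 0 := by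
  let _ := fintypeQuot Γ
  obtain ⟨n₁, n₂, h₁, h₂, rfl⟩ := hn
  rw [maninForm_add_left]
  have e1 : maninForm Γ n₁ e' = 0 := by
    rw [maninForm_eq_sum]
    have := sum_mul_cobd_eq_zero Γ S n₁ e' h₁
    have h3 : ∑ x : SL(2, ℤ) ⧸ Γ, n₁ x * (e' x - e' (S • x)) =
        - ∑ x : SL(2, ℤ) ⧸ Γ, n₁ x * (e' (S • x) - e' x) := by
      rw [← Finset.sum_neg_distrib]
      refine Finset.sum_congr rfl fun x _ => ?_
      ring
    rw [h3, this, neg_zero]
  have e2 : maninForm Γ n₂ e' = 0 := by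
    rw [maninForm_eq_sum]
    -- reindex by `x = U • y`
    rw [← Equiv.sum_comp (MulAction.toPerm (S * T))
      (fun x => n₂ x * (e' x - e' (S • x)))]
    have h3 : ∀ y : SL(2, ℤ) ⧸ Γ,
        n₂ ((MulAction.toPerm (S * T)) y) *
          (e' ((MulAction.toPerm (S * T)) y) - e' (S • (MulAction.toPerm (S * T)) y)) =
        - (n₂ y * ((fun z => m' z - e' z) ((S * T) • y) - (fun z => m' z - e' z) y)) := by
      intro y
      show n₂ ((S * T) • y) * (e' ((S * T) • y) - e' (S • (S * T) • y)) = _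
      rw [parData_cobd_eq hneg h y, h₂ y]
      ring
    rw [Finset.sum_congr rfl fun y _ => h3 y, Finset.sum_neg_distrib,
      sum_mul_cobd_eq_zero Γ (S * T) n₂ (fun z => m' z - e' z) h₂, neg_zero]
  rw [e1, e2, add_zero]

end Form

section ParData

variable {Γ : Subgroup SL(2, ℤ)} {A : Type*} [AddCommGroup A]

theorem parData_add {m e m' e' : SL(2, ℤ) ⧸ Γ → A} (h : IsParData Γ m e)
    (h' : IsParData Γ m' e') : IsParData Γ (m + m') (e + e') := by
  intro x
  have h1 := h x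
  have h2 := h' x
  simp only [Pi.add_apply]
  rw [add_sub_add_comm, h1, h2, add_sub_add_comm]

theorem parData_sub {m e m' e' : SL(2, ℤ) ⧸ Γ → A} (h : IsParData Γ m e)
    (h' : IsParData Γ m' e') : IsParData Γ (m - m') (e - e') := by
  intro x
  have h1 := h x
  have h2 := h' x
  simp only [Pi.sub_apply]
  rw [sub_sub_sub_comm, h1, h2, sub_sub_sub_comm]

theorem parData_map {B : Type*} [AddCommGroup B] (π : A →+ B) {m e : SL(2, ℤ) ⧸ Γ → A}
    (h : IsParData Γ m e) : IsParData Γ (fun x => π (m x)) (fun x => π (e x)) := by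
  intro x
  show π (e (T • x)) - π (e x) = π (m ((S * T) • x)) - π (m x)
  rw [← map_sub, ← map_sub, h x]

theorem isInvariantSum_zero : IsInvariantSum Γ (0 : SL(2, ℤ) ⧸ Γ → A) :=
  ⟨0, 0, fun _ => rfl, fun _ => rfl, (add_zero _).symm⟩

end ParData

/-! ## A1. The pairing is computed by any representatives -/

/-- Skew-symmetry of the Manin form on parabolic data, in terms of `maninForm` (from LA-2). -/
theorem maninForm_skew_of (hskew : ManinSkewStatement.{u}) {Γ : Subgroup SL(2, ℤ)} [Γ.FiniteIndex]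
    (hneg : (-1 : SL(2, ℤ)) ∈ Γ) {R : Type u} [CommRing R] {m e m' e' : SL(2, ℤ) ⧸ Γ → R}
    (h : IsParData Γ m e) (h' : IsParData Γ m' e') :
    maninForm Γ m' e = - maninForm Γ m e' := by
  let _ := fintypeQuot Γ
  rw [maninForm_eq_sum, maninForm_eq_sum]
  exact hskew (SL(2, ℤ) ⧸ Γ) (permOf Γ S) (permOf Γ (S * T)) (permOf Γ T)
    (fun x => smul_S_S hneg x) (fun x => smul_S_T x) R m e m' e' h h'

/-- If `m₁`, `m₂` represent the same class, then `m₁ - m₂ ∈ M^S + M^{ST}`. -/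
theorem isInvariantSum_sub_of (hlin : ManinRepLinearStatement.{u}) (hzero : ManinRepZeroStatement.{u})
    {Γ : Subgroup SL(2, ℤ)} [Γ.FiniteIndex] (hneg : (-1 : SL(2, ℤ)) ∈ Γ) {A : Type u}
    [AddCommGroup A] {φ : Additive Γ →+ A} {m₁ m₂ : SL(2, ℤ) ⧸ Γ → A}
    (h₁ : IsManinRep Γ φ m₁) (h₂ : IsManinRep Γ φ m₂) : IsInvariantSum Γ (m₁ - m₂) := by
  have h := (hlin Γ A A (AddMonoidHom.id A) φ φ m₁ m₂ h₁ h₂).2.1
  rw [sub_self] at h
  exact hzero Γ hneg A _ h

/-- Independence of the Manin form of the representatives. -/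
theorem maninForm_indep_of (hlin : ManinRepLinearStatement.{u}) (hzero : ManinRepZeroStatement.{u})
    (hpar : ManinRepParabolicStatement.{u}) (hskew : ManinSkewStatement.{u})
    {Γ : Subgroup SL(2, ℤ)} [Γ.FiniteIndex] (hneg : (-1 : SL(2, ℤ)) ∈ Γ) {R : Type u} [CommRing R]
    {φ ψ : Additive Γ →+ R} {m m' e' m₁ m₁' e₁ : SL(2, ℤ) ⧸ Γ → R} (hφ : IsParabolicHom Γ φ)
    (hm : IsManinRep Γ φ m) (hm' : IsManinRep Γ ψ m') (he' : IsParData Γ m' e')
    (hm₁ : IsManinRep Γ φ m₁) (hm₁' : IsManinRep Γ ψ m₁') (he₁ : IsParData Γ m₁' e₁) :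
    maninForm Γ m₁ e₁ = maninForm Γ m e' := by
  -- step (i)
  have s1 : maninForm Γ m₁ e₁ = maninForm Γ m e₁ := by
    have h0 := maninForm_eq_zero_of_invariantSum hneg
      (isInvariantSum_sub_of hlin hzero hneg hm₁ hm) he₁
    rw [maninForm_sub_left] at h0
    exact sub_eq_zero.mp h0
  -- step (ii)
  have s2 : maninForm Γ m e₁ = maninForm Γ m e' := by
    obtain ⟨e, he⟩ := (hpar Γ hneg R φ m hm).1 hφ
    have hd : IsParData Γ (m₁' - m') (e₁ - e') := parData_sub he₁ he'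
    have hn : IsInvariantSum Γ (m₁' - m') := isInvariantSum_sub_of hlin hzero hneg hm₁' hm'
    have h1 : maninForm Γ (m₁' - m') e = - maninForm Γ m (e₁ - e') :=
      maninForm_skew_of hskew hneg he hd
    rw [maninForm_eq_zero_of_invariantSum hneg hn he, maninForm_sub_right] at h1
    have h2 : maninForm Γ m e₁ - maninForm Γ m e' = 0 := by
      rw [← neg_eq_zero]; exact h1.symm
    exact sub_eq_zero.mp h2
  rw [s1, s2]

/-- **A1**: the pairing is computed by any representatives. -/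
theorem maninPairingEq_of (hlin : ManinRepLinearStatement.{u}) (hzero : ManinRepZeroStatement.{u})
    (hpar : ManinRepParabolicStatement.{u}) (hskew : ManinSkewStatement.{u}) :
    ManinPairingEqStatement.{u} := by
  intro Γ _ hneg R _ φ ψ m m' e' hφ hm hm' he'
  have hex : ∃ m m' e' : SL(2, ℤ) ⧸ Γ → R,
      IsManinRep Γ φ m ∧ IsManinRep Γ ψ m' ∧ IsParData Γ m' e' := ⟨m, m', e', hm, hm', he'⟩
  unfold maninPairing
  rw [dif_pos hex]
  obtain ⟨hm₁, hm₁', he₁⟩ := hex.choose_spec.choose_spec.choose_spec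
  exact maninForm_indep_of hlin hzero hpar hskew hneg hφ hm hm' he' hm₁ hm₁' he₁

/-! ## A2. Bilinear, skew-symmetric, nondegenerate -/

section Cuspidal

variable {Γ : Subgroup SL(2, ℤ)} {A : Type*} [AddCommGroup A]

theorem isCuspidalOn_add {x y : Additive Γ →+ A} (hx : IsCuspidalOn Γ x) (hy : IsCuspidalOn Γ y) :
    IsCuspidalOn Γ (x + y) := by
  refine ⟨fun γ hγ => ?_, fun γ hγ => ?_⟩
  · show x (Additive.ofMul γ) + y (Additive.ofMul γ) = 0
    rw [hx.1 γ hγ, hy.1 γ hγ, add_zero]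
  · show x (Additive.ofMul γ) + y (Additive.ofMul γ) = 0
    rw [hx.2 γ hγ, hy.2 γ hγ, add_zero]

theorem isCuspidalOn_map {B : Type*} [AddCommGroup B] (π : A →+ B) {x : Additive Γ →+ A}
    (hx : IsCuspidalOn Γ x) : IsCuspidalOn Γ (π.comp x) := by
  refine ⟨fun γ hγ => ?_, fun γ hγ => ?_⟩
  · show π (x (Additive.ofMul γ)) = 0
    rw [hx.1 γ hγ, map_zero]
  · show π (x (Additive.ofMul γ)) = 0
    rw [hx.2 γ hγ, map_zero]

end Cuspidal

/-- Cuspidal classes have Manin representatives with parabolic data (D1 + D4). -/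
theorem exists_rep_of_cuspidal (hD1 : ManinRepExistsStatement.{u})
    (hD4 : ManinRepParabolicStatement.{u}) {Γ : Subgroup SL(2, ℤ)} [Γ.FiniteIndex]
    (hneg : (-1 : SL(2, ℤ)) ∈ Γ) {A : Type u} [AddCommGroup A] {x : Additive Γ →+ A}
    (hx : IsCuspidalOn Γ x) :
    ∃ m e : SL(2, ℤ) ⧸ Γ → A, IsManinRep Γ x m ∧ IsParData Γ m e := by
  obtain ⟨m, hm⟩ := hD1 Γ hneg A x hx.2
  obtain ⟨e, he⟩ := (hD4 Γ hneg A x m hm).1 hx.1
  exact ⟨m, e, hm, he⟩

/-- Manin symbols with parabolic data represent cuspidal classes (D3 + D3' + D4). -/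
theorem exists_cuspidal_of_parData (hD3 : ManinRepRealizeStatement.{u})
    (hD3' : ManinRepTorsionStatement.{u}) (hD4 : ManinRepParabolicStatement.{u})
    {Γ : Subgroup SL(2, ℤ)} [Γ.FiniteIndex] (hneg : (-1 : SL(2, ℤ)) ∈ Γ) {A : Type u}
    [AddCommGroup A] {m e : SL(2, ℤ) ⧸ Γ → A} (h : IsParData Γ m e) :
    ∃ ψ : Additive Γ →+ A, IsCuspidalOn Γ ψ ∧ IsManinRep Γ ψ m := by
  obtain ⟨ψ, hψ⟩ := hD3 Γ hneg A m
  exact ⟨ψ, ⟨(hD4 Γ hneg A ψ m hψ).2 ⟨e, h⟩, hD3' Γ hneg A ψ m hψ⟩, hψ⟩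

/-- **A2**: the pairing is bilinear, skew-symmetric and nondegenerate on cuspidal classes. -/
theorem maninPairingPD_of (hA1 : ManinPairingEqStatement.{u}) (hD1 : ManinRepExistsStatement.{u})
    (hD2' : ManinRepInvariantStatement.{u}) (hlin : ManinRepLinearStatement.{u})
    (hD3 : ManinRepRealizeStatement.{u}) (hD3' : ManinRepTorsionStatement.{u})
    (hD4 : ManinRepParabolicStatement.{u}) (hperp : ManinPerpStatement.{u})
    (hskew : ManinSkewStatement.{u}) (hpdo : ManinParDataOfStatement.{u}) :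
    ManinPairingPDStatement.{u} := by
  intro Γ _ hneg F _
  refine ⟨?_, ?_, ?_, ?_⟩
  · -- additivity
    intro x x' y hx hx' hy
    obtain ⟨m, e, hm, -⟩ := exists_rep_of_cuspidal hD1 hD4 hneg hx
    obtain ⟨m', e', hm', -⟩ := exists_rep_of_cuspidal hD1 hD4 hneg hx'
    obtain ⟨n, d, hn, hd⟩ := exists_rep_of_cuspidal hD1 hD4 hneg hy
    rw [hA1 Γ hneg F x y m n d hx.1 hm hn hd, hA1 Γ hneg F x' y m' n d hx'.1 hm' hn hd,
      hA1 Γ hneg F (x + x') y (m + m') n d (isCuspidalOn_add hx hx').1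
        (hlin Γ F F (AddMonoidHom.id F) x x' m m' hm hm').1 hn hd,
      maninForm_add_left]
  · -- homogeneity
    intro c x y hx hy
    obtain ⟨m, e, hm, -⟩ := exists_rep_of_cuspidal hD1 hD4 hneg hx
    obtain ⟨n, d, hn, hd⟩ := exists_rep_of_cuspidal hD1 hD4 hneg hy
    have hcx : c • x = (AddMonoidHom.mulLeft c).comp x := by
      ext γ
      rfl
    have hm2 : IsManinRep Γ (c • x) (fun z => c * m z) := by
      rw [hcx]
      exact (hlin Γ F F (AddMonoidHom.mulLeft c) x x m m hm hm).2.2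
    have hpar : IsParabolicHom Γ (c • x) := by
      rw [hcx]
      exact (isCuspidalOn_map (AddMonoidHom.mulLeft c) hx).1
    rw [hA1 Γ hneg F x y m n d hx.1 hm hn hd,
      hA1 Γ hneg F (c • x) y (fun z => c * m z) n d hpar hm2 hn hd, maninForm_smul_left]
  · -- skew-symmetry
    intro x y hx hy
    obtain ⟨m, e, hm, he⟩ := exists_rep_of_cuspidal hD1 hD4 hneg hx
    obtain ⟨n, d, hn, hd⟩ := exists_rep_of_cuspidal hD1 hD4 hneg hy
    rw [hA1 Γ hneg F x y m n d hx.1 hm hn hd, hA1 Γ hneg F y x n m e hy.1 hn hm he]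
    exact maninForm_skew_of hskew hneg he hd
  · -- nondegeneracy
    intro x hx h0
    obtain ⟨m, e, hm, he⟩ := exists_rep_of_cuspidal hD1 hD4 hneg hx
    let _ := fintypeQuot Γ
    have key : ∀ s a b : SL(2, ℤ) ⧸ Γ → F, (∀ z, s z = a (permOf Γ S z) - a z) →
        (∀ z, s z = b (permOf Γ (S * T) z) - b z) → ∑ z, m z * s z = 0 := by
      intro s a b hsa hsb
      obtain ⟨n, d, hnd, hds⟩ := hpdo (SL(2, ℤ) ⧸ Γ) (permOf Γ S) (permOf Γ (S * T))
        (permOf Γ T) (fun z => smul_S_S hneg z) (fun z => smul_S_T z) F s a b hsa hsb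
      have hnd' : IsParData Γ n d := hnd
      obtain ⟨ψ, hψ, hψn⟩ := exists_cuspidal_of_parData hD3 hD3' hD4 hneg hnd'
      have h1 := h0 ψ hψ
      rw [hA1 Γ hneg F x ψ m n d hx.1 hm hψn hnd', maninForm_eq_sum] at h1
      have h2 : ∑ z, m z * s z = - ∑ z : SL(2, ℤ) ⧸ Γ, m z * (d z - d (S • z)) := by
        rw [← Finset.sum_neg_distrib]
        refine Finset.sum_congr rfl fun z _ => ?_
        have := hds z
        rw [permOf_apply] at this
        rw [← this]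
        ring
      rw [h2, h1, neg_zero]
    obtain ⟨n₁, n₂, h₁, h₂, hsum⟩ := hperp (SL(2, ℤ) ⧸ Γ) (permOf Γ S) (permOf Γ (S * T)) F m key
    exact hD2' Γ hneg F x m hm ⟨n₁, n₂, h₁, h₂, hsum⟩

/-! ## A3. Restriction is left adjoint to the transfer -/

/-- The restriction of a parabolic class is parabolic. -/
theorem isParabolicHom_res {Γ' Γ : Subgroup SL(2, ℤ)} (hle : Γ' ≤ Γ) {A : Type*} [AddCommGroup A]
    {x : Additive Γ →+ A} (hx : IsParabolicHom Γ x) :
    IsParabolicHom Γ' (x.comp (MonoidHom.toAdditive (Subgroup.inclusion hle))) :=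
  fun γ hγ => hx (Subgroup.inclusion hle γ) hγ

/-- The restriction of a cuspidal class is cuspidal. -/
theorem isCuspidalOn_res {Γ' Γ : Subgroup SL(2, ℤ)} (hle : Γ' ≤ Γ) {A : Type*} [AddCommGroup A]
    {x : Additive Γ →+ A} (hx : IsCuspidalOn Γ x) :
    IsCuspidalOn Γ' (x.comp (MonoidHom.toAdditive (Subgroup.inclusion hle))) :=
  ⟨isParabolicHom_res hle hx.1, fun γ hγ => hx.2 (Subgroup.inclusion hle γ)
    ((Subgroup.inclusion hle).isOfFinOrder hγ)⟩

/-- **A3**: restriction is left adjoint to the transfer. -/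
theorem maninPairingResCores_of (hA1 : ManinPairingEqStatement.{u})
    (hD1 : ManinRepExistsStatement.{u}) (hD4 : ManinRepParabolicStatement.{u})
    (hres : ManinRepResStatement.{u}) (hcores : ManinRepCoresStatement.{u})
    (hadj : ManinFormAdjointStatement.{u}) : ManinPairingResCoresStatement.{u} := by
  intro Γ' Γ _ _ hle hneg' F _ x y hx hy
  have hneg : (-1 : SL(2, ℤ)) ∈ Γ := hle hneg'
  obtain ⟨m, e, hm, -⟩ := exists_rep_of_cuspidal hD1 hD4 hneg hx
  obtain ⟨m', e', hm', he'⟩ := exists_rep_of_cuspidal hD1 hD4 hneg' hy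
  obtain ⟨hpd, hform⟩ := hadj Γ' Γ hle F m m' e' he'
  rw [hA1 Γ' hneg' F _ y _ m' e' (isParabolicHom_res hle hx.1) (hres Γ' Γ hle F x m hm) hm' he',
    hA1 Γ hneg F x _ m _ _ hx.1 hm (hcores Γ' Γ hle F y m' hm') hpd]
  exact hform

/-! ## A4. The β-formula -/

section HeisLift

variable {Γ : Subgroup SL(2, ℤ)} {R : Type*} [CommRing R] {φ ψ : Additive Γ →+ R} {ζ : Γ → R}

theorem heisLift_one (h : IsHeisLift Γ φ ψ ζ) : ζ 1 = 0 := h.2 1 IsOfFinOrder.one

/-- A Heisenberg lift is invariant under conjugation on the common kernel of `φ` and `ψ`. -/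
theorem heisLift_conj (h : IsHeisLift Γ φ ψ ζ) (g γ : Γ) (hφ : φ (Additive.ofMul γ) = 0)
    (hψ : ψ (Additive.ofMul γ) = 0) : ζ (g * γ * g⁻¹) = ζ γ := by
  have h1 := h.1 (g * γ) g⁻¹
  have h2 := h.1 g γ
  have h3 := h.1 g g⁻¹
  rw [mul_inv_cancel, heisLift_one h] at h3
  have h4 : φ (Additive.ofMul (g * γ)) = φ (Additive.ofMul g) := by
    rw [ofMul_mul, map_add, hφ, add_zero]
  rw [h1, h2, h4, hψ, mul_zero, add_zero]
  linear_combination -h3

/-- The difference of two Heisenberg lifts of `(φ, ψ)` is a torsion-trivial homomorphism. -/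
def heisDiff (h : IsHeisLift Γ φ ψ ζ) {ζ₀ : Γ → R} (h₀ : IsHeisLift Γ φ ψ ζ₀) : Additive Γ →+ R :=
  AddMonoidHom.mk' (fun a => ζ (Additive.toMul a) - ζ₀ (Additive.toMul a)) (by
    intro a b
    show ζ (Additive.toMul a * Additive.toMul b) - ζ₀ (Additive.toMul a * Additive.toMul b) = _
    rw [h.1, h₀.1]
    ring)

theorem heisDiff_apply (h : IsHeisLift Γ φ ψ ζ) {ζ₀ : Γ → R} (h₀ : IsHeisLift Γ φ ψ ζ₀) (γ : Γ) :
    heisDiff h h₀ (Additive.ofMul γ) = ζ γ - ζ₀ γ := rfl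

theorem heisDiff_torsion (h : IsHeisLift Γ φ ψ ζ) {ζ₀ : Γ → R} (h₀ : IsHeisLift Γ φ ψ ζ₀) (γ : Γ)
    (hγ : IsOfFinOrder γ) : heisDiff h h₀ (Additive.ofMul γ) = 0 := by
  rw [heisDiff_apply, h.2 γ hγ, h₀.2 γ hγ, sub_zero]

end HeisLift

/-- Parabolic classes vanish on positive parabolic elements. -/
theorem apply_eq_zero_of_isPosParabolic {Γ : Subgroup SL(2, ℤ)} {A : Type*} [AddCommGroup A]
    {φ : Additive Γ →+ A} (hφ : IsParabolicHom Γ φ) (γ : Γ) (hγ : IsPosParabolic (γ : SL(2, ℤ))) :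
    φ (Additive.ofMul γ) = 0 := by
  apply hφ γ
  rw [hγ.2.1]
  norm_num

/-- **A4**: the β-formula for any Heisenberg lift and any cusp system. -/
theorem maninPairingBeta_of (hA1 : ManinPairingEqStatement.{u}) (hD1 : ManinRepExistsStatement.{u})
    (hD4 : ManinRepParabolicStatement.{u}) (hheis : HeisLiftStatement.{u})
    (hzero : CuspSumZeroStatement.{u}) (hex : TOrbitSystemExistsStatement)
    (hcusp : TOrbitCuspStatement) (hind : CuspSumIndepStatement.{u}) :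
    ManinPairingBetaStatement.{u} := by
  intro Γ _ hneg F _ φ ψ ζ hφ hψ hζ ι _ γ hγ
  obtain ⟨m, e, hm, he⟩ := exists_rep_of_cuspidal hD1 hD4 hneg hφ
  obtain ⟨m', e', hm', he'⟩ := exists_rep_of_cuspidal hD1 hD4 hneg hψ
  obtain ⟨ζ₀, hζ₀, hβ⟩ := hheis Γ hneg F φ ψ m m' e e' hm hm' he he'
  obtain ⟨ι₀, hι₀, γ₀, h₀, w₀, hsys⟩ := hex Γ
  have hγ₀ : IsCuspSystem Γ γ₀ := hcusp Γ hneg ι₀ γ₀ h₀ w₀ hsys
  -- the sum over `γ` equals the sum over `γ₀`
  have e1 : ∑ i, ζ (γ i) = ∑ i, ζ (γ₀ i) :=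
    hind Γ F ζ (fun g c hc => heisLift_conj hζ g c
      (apply_eq_zero_of_isPosParabolic hφ.1 c hc) (apply_eq_zero_of_isPosParabolic hψ.1 c hc))
      ι ι₀ γ γ₀ hγ hγ₀
  -- the difference of the two lifts sums to zero
  have e2 : ∑ i, heisDiff hζ hζ₀ (Additive.ofMul (γ₀ i)) = 0 :=
    hzero Γ hneg F (heisDiff hζ hζ₀) (heisDiff_torsion hζ hζ₀) ι₀ γ₀ h₀ w₀ hsys
  simp only [heisDiff_apply, Finset.sum_sub_distrib] at e2
  rw [e1, sub_eq_zero.mp e2, hβ ι₀ γ₀ h₀ w₀ hsys, hA1 Γ hneg F φ ψ m m' e' hφ.1 hm hm' he']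

/-! ## Elementary facts on `Γ₀(n)` and `Γ' = δ Γ₀(N q) δ⁻¹` -/

theorem neg_one_mem_Gamma0' (n : ℕ) : (-1 : SL(2, ℤ)) ∈ Gamma0 n := by
  rw [Gamma0_mem]
  simp

theorem conjDelta_coe (N q : ℕ) (γ : Gamma0 (N * q)) :
    (((conjDelta N q γ : Gamma0 N) : SL(2, ℤ)) : Matrix (Fin 2) (Fin 2) ℤ) =
      conjDeltaMatrix q (γ : SL(2, ℤ)) := rfl

theorem conjDeltaR_coe (N q : ℕ) (γ : Gamma0 (N * q)) :
    (((conjDeltaR N q γ : gamma0Delta N q) : SL(2, ℤ)) : Matrix (Fin 2) (Fin 2) ℤ) =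
      conjDeltaMatrix q (γ : SL(2, ℤ)) := rfl

theorem conjDeltaR_coe_eq (N q : ℕ) (γ : Gamma0 (N * q)) :
    ((conjDeltaR N q γ : gamma0Delta N q) : SL(2, ℤ)) = ((conjDelta N q γ : Gamma0 N) : SL(2, ℤ)) :=
  rfl

/-- `c_δ` preserves the trace. -/
theorem trace_conjDeltaR (N q : ℕ) (γ : Gamma0 (N * q)) :
    (((conjDeltaR N q γ : gamma0Delta N q) : SL(2, ℤ)) : Matrix (Fin 2) (Fin 2) ℤ).trace =
      (((γ : Gamma0 (N * q)) : SL(2, ℤ)) : Matrix (Fin 2) (Fin 2) ℤ).trace := by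
  rw [conjDeltaR_coe, Matrix.trace_fin_two, Matrix.trace_fin_two]
  simp [conjDeltaMatrix]

theorem neg_one_mem_gamma0Delta (N q : ℕ) : (-1 : SL(2, ℤ)) ∈ gamma0Delta N q := by
  refine ⟨⟨-1, neg_one_mem_Gamma0' (N * q)⟩, ?_⟩
  apply Subtype.ext
  show conjDeltaMatrix q (-1 : SL(2, ℤ)) = ((-1 : SL(2, ℤ)) : Matrix (Fin 2) (Fin 2) ℤ)
  ext i j
  fin_cases i <;> fin_cases j <;> simp [conjDeltaMatrix]

theorem conjDelta_injective' (N : ℕ) {q : ℕ} (hq : q ≠ 0) :
    Function.Injective (conjDelta N q) := by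
  have hq' : (q : ℤ) ≠ 0 := by exact_mod_cast hq
  intro k k' h
  have hm : conjDeltaMatrix q (k : SL(2, ℤ)) = conjDeltaMatrix q (k' : SL(2, ℤ)) := by
    rw [← conjDelta_coe, ← conjDelta_coe, h]
  have e00 := congrFun (congrFun hm 0) 0
  have e01 := congrFun (congrFun hm 0) 1
  have e10 := congrFun (congrFun hm 1) 0
  have e11 := congrFun (congrFun hm 1) 1
  simp only [conjDeltaMatrix, Matrix.of_apply, Matrix.cons_val', Matrix.cons_val_zero,
    Matrix.cons_val_one, Matrix.cons_val_fin_one] at e00 e01 e10 e11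
  obtain ⟨c, hc⟩ := (dvd_of_mem_gamma0_mul k).1
  obtain ⟨c', hc'⟩ := (dvd_of_mem_gamma0_mul k').1
  rw [hc, hc', Int.mul_ediv_cancel_left _ hq', Int.mul_ediv_cancel_left _ hq'] at e10
  apply Subtype.ext
  apply Subtype.ext
  ext i j
  fin_cases i <;> fin_cases j
  · exact e00
  · exact mul_left_cancel₀ hq' e01
  · show (k : SL(2, ℤ)) 1 0 = (k' : SL(2, ℤ)) 1 0
    rw [hc, hc', e10]
  · exact e11

theorem conjDeltaR_injective (N : ℕ) {q : ℕ} (hq : q ≠ 0) :
    Function.Injective (conjDeltaR N q) := by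
  intro k k' h
  apply conjDelta_injective' N hq
  apply Subtype.ext
  rw [← conjDeltaR_coe_eq, ← conjDeltaR_coe_eq, h]

theorem conjDeltaR_surjective (N q : ℕ) : Function.Surjective (conjDeltaR N q) :=
  MonoidHom.rangeRestrict_surjective _

/-- `c_δ` as an isomorphism `Γ₀(N q) ≃* Γ'`. -/
noncomputable def conjDeltaEquiv (N : ℕ) {q : ℕ} (hq : q ≠ 0) : Gamma0 (N * q) ≃* gamma0Delta N q :=
  MulEquiv.ofBijective (conjDeltaR N q) ⟨conjDeltaR_injective N hq, conjDeltaR_surjective N q⟩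

theorem conjDeltaEquiv_apply (N : ℕ) {q : ℕ} (hq : q ≠ 0) (γ : Gamma0 (N * q)) :
    conjDeltaEquiv N hq γ = conjDeltaR N q γ := rfl

/-- `conjDelta = inclusion ∘ conjDeltaEquiv`. -/
theorem conjDelta_eq_comp (N : ℕ) {q : ℕ} (hq : q ≠ 0) :
    conjDelta N q =
      (Subgroup.inclusion (gamma0Delta_le N q)).comp (conjDeltaEquiv N hq).toMonoidHom := by
  ext γ
  rfl

/-- `Γ(N q) ≤ Γ'`. -/
theorem Gamma_le_gamma0Delta (N : ℕ) {q : ℕ} (hq : q ≠ 0) : Gamma (N * q) ≤ gamma0Delta N q := by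
  have hq' : (q : ℤ) ≠ 0 := by exact_mod_cast hq
  intro g hg
  rw [Gamma_mem] at hg
  obtain ⟨-, h01, h10, -⟩ := hg
  rw [ZMod.intCast_zmod_eq_zero_iff_dvd] at h01 h10
  have hq01 : (q : ℤ) ∣ g 0 1 := dvd_trans (by push_cast; exact dvd_mul_left _ _) h01
  obtain ⟨b, hb⟩ := hq01
  have hdet : g 0 0 * g 1 1 - g 0 1 * g 1 0 = 1 := by
    have := g.det_coe
    rwa [Matrix.det_fin_two] at this
  let γ : SL(2, ℤ) := ⟨!![g 0 0, b; (q : ℤ) * g 1 0, g 1 1], by
    rw [Matrix.det_fin_two_of]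
    rw [hb] at hdet
    linear_combination hdet⟩
  have hγ : γ ∈ Gamma0 (N * q) := by
    rw [Gamma0_mem, ZMod.intCast_zmod_eq_zero_iff_dvd]
    show ((N * q : ℕ) : ℤ) ∣ (q : ℤ) * g 1 0
    exact dvd_mul_of_dvd_right h10 _
  refine ⟨⟨γ, hγ⟩, ?_⟩
  apply Subtype.ext
  show conjDeltaMatrix q γ = (g : Matrix (Fin 2) (Fin 2) ℤ)
  ext i j
  fin_cases i <;> fin_cases j
  · rfl
  · show (q : ℤ) * b = g 0 1
    rw [hb]
  · show (q : ℤ) * g 1 0 / (q : ℤ) = g 1 0
    exact Int.mul_ediv_cancel_left _ hq'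
  · rfl

theorem gamma0Delta_finiteIndex {N q : ℕ} (hN : N ≠ 0) (hq : q ≠ 0) :
    (gamma0Delta N q).FiniteIndex := by
  have : NeZero (N * q) := ⟨Nat.mul_ne_zero hN hq⟩
  exact Subgroup.finiteIndex_of_le (Gamma_le_gamma0Delta N hq)

theorem Gamma0_finiteIndex {n : ℕ} (hn : n ≠ 0) : (Gamma0 n).FiniteIndex := by
  have : NeZero n := ⟨hn⟩
  infer_instance

/-! ## A5. `c_δ` is an isometry -/

/-- Pull-back of a cuspidal class along `c_δ`. -/
theorem isCuspidalOn_comp_conjDeltaR (N q : ℕ) {A : Type*} [AddCommGroup A]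
    {φ : Additive (gamma0Delta N q) →+ A} (hφ : IsCuspidalOn (gamma0Delta N q) φ) :
    IsCuspidalOn (Gamma0 (N * q)) (φ.comp (MonoidHom.toAdditive (conjDeltaR N q))) := by
  refine ⟨fun γ hγ => ?_, fun γ hγ => ?_⟩
  · refine hφ.1 (conjDeltaR N q γ) ?_
    rw [trace_conjDeltaR]
    exact hγ
  · exact hφ.2 (conjDeltaR N q γ) ((conjDeltaR N q).isOfFinOrder hγ)

/-- Pull-back of a Heisenberg lift along `c_δ`. -/
theorem isHeisLift_comp_conjDeltaR (N q : ℕ) {R : Type*} [CommRing R]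
    {φ ψ : Additive (gamma0Delta N q) →+ R} {ζ : gamma0Delta N q → R}
    (h : IsHeisLift (gamma0Delta N q) φ ψ ζ) :
    IsHeisLift (Gamma0 (N * q)) (φ.comp (MonoidHom.toAdditive (conjDeltaR N q)))
      (ψ.comp (MonoidHom.toAdditive (conjDeltaR N q))) (fun γ => ζ (conjDeltaR N q γ)) := by
  refine ⟨fun γ γ' => ?_, fun γ hγ => ?_⟩
  · show ζ (conjDeltaR N q (γ * γ')) = _
    rw [map_mul, h.1]
    rfl
  · exact h.2 (conjDeltaR N q γ) ((conjDeltaR N q).isOfFinOrder hγ)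

/-- **A5**: `c_δ` is an isometry for the Manin pairings. -/
theorem maninPairingConjDelta_of (hA4 : ManinPairingBetaStatement.{u})
    (hD1 : ManinRepExistsStatement.{u}) (hD4 : ManinRepParabolicStatement.{u})
    (hheis : HeisLiftStatement.{u}) (hex : TOrbitSystemExistsStatement)
    (hcusp : TOrbitCuspStatement) (hδ : CuspSystemConjDeltaStatement) :
    ManinPairingConjDeltaStatement.{u} := by
  intro N q hN hq hqN F _ φ ψ hφ hψ
  have hq0 : q ≠ 0 := hq.ne_zero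
  have : (gamma0Delta N q).FiniteIndex := gamma0Delta_finiteIndex hN hq0
  have : (Gamma0 (N * q)).FiniteIndex := Gamma0_finiteIndex (Nat.mul_ne_zero hN hq0)
  have hneg' := neg_one_mem_gamma0Delta N q
  have hneg := neg_one_mem_Gamma0' (N * q)
  obtain ⟨m, e, hm, he⟩ := exists_rep_of_cuspidal hD1 hD4 hneg' hφ
  obtain ⟨m', e', hm', he'⟩ := exists_rep_of_cuspidal hD1 hD4 hneg' hψ
  obtain ⟨ζ, hζ, -⟩ := hheis (gamma0Delta N q) hneg' F φ ψ m m' e e' hm hm' he he'
  obtain ⟨ι, hι, γ, h, w, hsys⟩ := hex (Gamma0 (N * q))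
  have hγ : IsCuspSystem (Gamma0 (N * q)) γ := hcusp (Gamma0 (N * q)) hneg ι γ h w hsys
  have hγ' : IsCuspSystem (gamma0Delta N q) (fun i => conjDeltaR N q (γ i)) := hδ N q hN hq0 ι γ hγ
  have e1 := hA4 (Gamma0 (N * q)) hneg F _ _ _ (isCuspidalOn_comp_conjDeltaR N q hφ)
    (isCuspidalOn_comp_conjDeltaR N q hψ) (isHeisLift_comp_conjDeltaR N q hζ) ι γ hγ
  have e2 := hA4 (gamma0Delta N q) hneg' F φ ψ ζ hφ hψ hζ ι _ hγ'
  exact neg_injective (e1.symm.trans e2)

/-! ## Block PD -/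

/-- Push-forward of a cuspidal class along `c_δ⁻¹`. -/
theorem isCuspidalOn_comp_conjDeltaEquiv_symm (N : ℕ) {q : ℕ} (hq : q ≠ 0) {A : Type*}
    [AddCommGroup A] {y : Additive (Gamma0 (N * q)) →+ A} (hy : IsCuspidalOn (Gamma0 (N * q)) y) :
    IsCuspidalOn (gamma0Delta N q)
      (y.comp (MonoidHom.toAdditive (conjDeltaEquiv N hq).symm.toMonoidHom)) := by
  refine ⟨fun γ hγ => ?_, fun γ hγ => ?_⟩
  · refine hy.1 ((conjDeltaEquiv N hq).symm γ) ?_
    rw [← trace_conjDeltaR, ← conjDeltaEquiv_apply N hq, MulEquiv.apply_symm_apply]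
    exact hγ
  · exact hy.2 ((conjDeltaEquiv N hq).symm γ)
      ((conjDeltaEquiv N hq).symm.toMonoidHom.isOfFinOrder hγ)

/-- `y = (y ∘ c_δ⁻¹) ∘ c_δ`. -/
theorem comp_conjDeltaEquiv_symm_comp (N : ℕ) {q : ℕ} (hq : q ≠ 0) {A : Type*}
    [AddCommGroup A] (y : Additive (Gamma0 (N * q)) →+ A) :
    (y.comp (MonoidHom.toAdditive (conjDeltaEquiv N hq).symm.toMonoidHom)).comp
      (MonoidHom.toAdditive (conjDeltaR N q)) = y := by
  ext γ
  show y (Additive.ofMul ((conjDeltaEquiv N hq).symm (conjDeltaR N q (Additive.toMul γ)))) = y γ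
  rw [← conjDeltaEquiv_apply N hq, MulEquiv.symm_apply_apply]
  rfl

/-- **Block PD** from the assembly statements A2, A3, A5 and TR-4. -/
theorem pd_of (hA2 : ManinPairingPDStatement.{u}) (hA3 : ManinPairingResCoresStatement.{u})
    (hA5 : ManinPairingConjDeltaStatement.{u}) (hTR4 : TransferAlongEquivStatement.{u}) :
    PDStatement.{u} := by
  intro F _
  refine ⟨fun n => maninPairing (Gamma0 n), ?_, ?_, ?_, ?_, ?_⟩
  · intro n hn x x' y hx hx' hy
    have := Gamma0_finiteIndex hn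
    exact (hA2 (Gamma0 n) (neg_one_mem_Gamma0' n) F).1 x x' y hx hx' hy
  · intro n hn c x y hx hy
    have := Gamma0_finiteIndex hn
    exact (hA2 (Gamma0 n) (neg_one_mem_Gamma0' n) F).2.1 c x y hx hy
  · intro n hn x y hx hy
    have := Gamma0_finiteIndex hn
    exact (hA2 (Gamma0 n) (neg_one_mem_Gamma0' n) F).2.2.1 x y hx hy
  · intro n hn x hx h0
    have := Gamma0_finiteIndex hn
    exact (hA2 (Gamma0 n) (neg_one_mem_Gamma0' n) F).2.2.2 x hx h0
  · intro N q hN hq hqN x y hx hy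
    have hq0 : q ≠ 0 := hq.ne_zero
    have hfin : (Gamma0 N).FiniteIndex := Gamma0_finiteIndex hN
    have hfin' : (Gamma0 (N * q)).FiniteIndex := Gamma0_finiteIndex (Nat.mul_ne_zero hN hq0)
    have hfinδ : (gamma0Delta N q).FiniteIndex := gamma0Delta_finiteIndex hN hq0
    refine ⟨?_, ?_⟩
    · exact hA3 (Gamma0 (N * q)) (Gamma0 N) (gamma0_mul_le N q) (neg_one_mem_Gamma0' _) F x y hx hy
    · -- `y' = y ∘ c_δ⁻¹` on `Γ'`
      have hy' := isCuspidalOn_comp_conjDeltaEquiv_symm N hq0 hy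
      have hx' : IsCuspidalOn (gamma0Delta N q)
          (x.comp (MonoidHom.toAdditive (Subgroup.inclusion (gamma0Delta_le N q)))) :=
        isCuspidalOn_res (gamma0Delta_le N q) hx
      have e1 := hA5 N q hN hq hqN F _ _ hx' hy'
      rw [comp_conjDeltaEquiv_symm_comp] at e1
      have e2 := hA3 (gamma0Delta N q) (Gamma0 N) (gamma0Delta_le N q)
        (neg_one_mem_gamma0Delta N q) F x _ hx hy'
      have e3 : t₂ N q y = transferAlong (Subgroup.inclusion (gamma0Delta_le N q))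
          (y.comp (MonoidHom.toAdditive (conjDeltaEquiv N hq0).symm.toMonoidHom)) := by
        show transferAlong (conjDelta N q) y = _
        rw [conjDelta_eq_comp N hq0]
        exact hTR4 _ _ _ (conjDeltaEquiv N hq0) (Subgroup.inclusion (gamma0Delta_le N q)) F y
      show maninPairing (Gamma0 (N * q)) (r₂ N q x) y = maninPairing (Gamma0 N) x (t₂ N q y)
      rw [e3, ← e2, ← e1]
      rfl

/-! ## Block LIFT -/

/-- Two classes with the same Manin representative are equal (D2'' + D2'). -/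
theorem eq_of_isManinRep (hD2' : ManinRepInvariantStatement.{u})
    (hlin : ManinRepLinearStatement.{u}) {Γ : Subgroup SL(2, ℤ)} [Γ.FiniteIndex]
    (hneg : (-1 : SL(2, ℤ)) ∈ Γ) {A : Type u} [AddCommGroup A] {φ φ' : Additive Γ →+ A}
    {m : SL(2, ℤ) ⧸ Γ → A} (h : IsManinRep Γ φ m) (h' : IsManinRep Γ φ' m) : φ = φ' := by
  have h1 := (hlin Γ A A (AddMonoidHom.id A) φ φ' m m h h').2.1
  rw [sub_self] at h1
  exact sub_eq_zero.mp (hD2' Γ hneg A (φ - φ') 0 h1 isInvariantSum_zero)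

/-- **Block LIFT (a)**: cuspidal classes mod `p` lift to cuspidal classes over `ℤ`. -/
theorem lift_of (hD1 : ManinRepExistsStatement.{0}) (hD2' : ManinRepInvariantStatement.{0})
    (hlin : ManinRepLinearStatement.{0}) (hD3 : ManinRepRealizeStatement.{0})
    (hD3' : ManinRepTorsionStatement.{0}) (hD4 : ManinRepParabolicStatement.{0})
    (hLA4 : ParDataLiftStatement) : LiftStatement := by
  intro n p hn xbar hxbar
  have hfin := Gamma0_finiteIndex hn
  have hneg := neg_one_mem_Gamma0' n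
  obtain ⟨mbar, ebar, hmbar, hebar⟩ := exists_rep_of_cuspidal hD1 hD4 hneg hxbar
  obtain ⟨m, e, hme, hm, -⟩ := hLA4 (Gamma0 n) p mbar ebar hebar
  obtain ⟨x, hx, hxm⟩ := exists_cuspidal_of_parData hD3 hD3' hD4 hneg hme
  refine ⟨x, hx, ?_⟩
  have h1 : IsManinRep (Gamma0 n) ((Int.castAddHom (ZMod p)).comp x) mbar := by
    have h2 := (hlin (Gamma0 n) ℤ (ZMod p) (Int.castAddHom (ZMod p)) x x m m hxm hxm).2.2
    have h3 : (fun z => (Int.castAddHom (ZMod p)) (m z)) = mbar := funext fun z => hm z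
    rwa [h3] at h2
  exact eq_of_isManinRep hD2' hlin hneg h1 hmbar

/-! ## The complete assembly of block PD -/

/-- **Block PD from its leaves.** -/
theorem pd_of_leaves
    (hLA1 : ManinPerpStatement.{u}) (hLA2 : ManinSkewStatement.{u})
    (hLA3 : ManinParDataOfStatement.{u})
    (hD1 : ManinRepExistsStatement.{u}) (hD2 : ManinRepZeroStatement.{u})
    (hD2' : ManinRepInvariantStatement.{u}) (hlin : ManinRepLinearStatement.{u})
    (hD3 : ManinRepRealizeStatement.{u}) (hD3' : ManinRepTorsionStatement.{u})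
    (hD4 : ManinRepParabolicStatement.{u})
    (hTR1 : ManinRepResStatement.{u}) (hTR2 : ManinRepCoresStatement.{u})
    (hTR3 : ManinFormAdjointStatement.{u}) (hTR4 : TransferAlongEquivStatement.{u})
    (hheis : HeisLiftStatement.{u}) (hheisU : CuspSumZeroStatement.{u})
    (hC1 : TOrbitSystemExistsStatement) (hC2 : TOrbitCuspStatement)
    (hC3 : CuspSumIndepStatement.{u}) (hC4 : CuspSystemConjDeltaStatement) :
    PDStatement.{u} := by
  have hA1 : ManinPairingEqStatement.{u} := maninPairingEq_of hlin hD2 hD4 hLA2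
  have hA2 : ManinPairingPDStatement.{u} :=
    maninPairingPD_of hA1 hD1 hD2' hlin hD3 hD3' hD4 hLA1 hLA2 hLA3
  have hA3 : ManinPairingResCoresStatement.{u} :=
    maninPairingResCores_of hA1 hD1 hD4 hTR1 hTR2 hTR3
  have hA4 : ManinPairingBetaStatement.{u} :=
    maninPairingBeta_of hA1 hD1 hD4 hheis hheisU hC1 hC2 hC3
  have hA5 : ManinPairingConjDeltaStatement.{u} :=
    maninPairingConjDelta_of hA4 hD1 hD4 hheis hC1 hC2 hC4
  exact pd_of hA2 hA3 hA5 hTR4

end Fermat.Agent.S41.H462
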