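import Mathlib
import Fermat.Agent.S41.Spec.PD
import Fermat.Agent.S41.H761.TRH
import Fermat.Agent.S41.H462.PDAsm

/-!
# Row S41, block PD — leaf PD-HECKE (helper462): `T_l` is self-adjoint for every PD family

`pdHeckeOfPD : Spec.PDHeckeOfPDStatement`, `pdHecke_of_pd : Spec.PDStatement → Spec.PDHeckeStatement`,
`pdHecke_of_leaves : (the 20 leaves of PD) → Spec.PDHeckeStatement`.

`B(x, T y) = B(x, t₁ r₂ y) = B(r₁ x, r₂ y) = - B(r₂ y, r₁ x) = - B(y, t₂ r₁ x) = - B(y, T x) = B(T x, y)`.
The last step is skew-symmetry at level `n`, which needs `T x` cuspidal: this is the leaf HC of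
block HK (`H761.heckeCusp`, on main).
-/

set_option autoImplicit false

namespace Fermat.Agent.S41.H462

open CongruenceSubgroup Matrix.SpecialLinearGroup ModularCurve.Period ModularGroup
open Fermat.Agent.S41.Spec Fermat.Agent.S29.H642
open scoped MatrixGroups

universe u

/-- `T_l` is self-adjoint for a PD family, given the leaves RC, TRH, HC of block HK. -/
theorem isHeckeSelfAdjoint_of (hRC : RestrictCuspStatement.{u})
    (hTRH : TransferRestrictHeckeStatement.{u}) (hHC : HeckeCuspStatement.{u})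
    (F : Type u) [Field F]
    (B : ∀ n : ℕ, (Additive (Gamma0 n) →+ F) → (Additive (Gamma0 n) →+ F) → F)
    (hB : IsPDFamily F B) : IsHeckeSelfAdjoint F B := by
  obtain ⟨-, -, hskew, -, hadj⟩ := hB
  intro n l _ hl hn x y hx hy
  have hl0 : l ≠ 0 := (Fact.out : l.Prime).ne_zero
  have key : ∀ x y : Additive (Gamma0 n) →+ F, IsCuspidal x → IsCuspidal y →
      B n x (heckeTransfer hl y) = - B n y (heckeTransfer hl x) := by
    intro x y hx hy
    have h1 := (hadj n l hn Fact.out hl x (r₂ n l y) hx (hRC n l F y hy).2).1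
    have h2 := (hadj n l hn Fact.out hl y (r₁ n l x) hy (hRC n l F x hx).1).2
    have h3 := hskew (n * l) (Nat.mul_ne_zero hn hl0) (r₂ n l y) (r₁ n l x) (hRC n l F y hy).2
      (hRC n l F x hx).1
    rw [(hTRH n l hl hn F y).1] at h1
    rw [(hTRH n l hl hn F x).2] at h2
    rw [← h1, h3, h2]
  rw [hskew n hn y (heckeTransfer hl x) hy (hHC n l hl F x hx), key x y hx hy]

/-- **Leaf PD-HECKE** (exact shape of `Spec.PDHeckeOfPDStatement`). -/
theorem pdHeckeOfPD : PDHeckeOfPDStatement.{u} := fun hRC hTRH F _ B hB =>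
  isHeckeSelfAdjoint_of hRC hTRH H761.heckeCusp F B hB

/-- `PD ⇒ PD-HECKE`, unconditional in block HK (leaves RC, TRH, HC are on main). -/
theorem pdHecke_of_pd (hPD : PDStatement.{u}) : PDHeckeStatement.{u} := by
  intro F _
  obtain ⟨B, hB⟩ := hPD F
  exact ⟨B, hB, isHeckeSelfAdjoint_of H581.restrictCusp H761.transferRestrictHecke
    H761.heckeCusp F B hB⟩

/-- **Block PD with Hecke operators from the leaves of PD** (HK leaves RC, TRH, HC are on main). -/
theorem pdHecke_of_leaves
    (hLA1 : ManinPerpStatement.{u}) (hLA2 : ManinSkewStatement.{u})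
    (hLA3 : ManinParDataOfStatement.{u})
    (hD1 : ManinRepExistsStatement.{u}) (hD2 : ManinRepZeroStatement.{u})
    (hD2' : ManinRepInvariantStatement.{u}) (hlin : ManinRepLinearStatement.{u})
    (hD3 : ManinRepRealizeStatement.{u}) (hD3' : ManinRepTorsionStatement.{u})
    (hD4 : ManinRepParabolicStatement.{u})
    (hTR1 : ManinRepResStatement.{u}) (hTR2 : ManinRepCoresStatement.{u})
    (hTR3 : ManinFormAdjointStatement.{u}) (hTR4 : TransferAlongEquivStatement.{u})
    (hheis : HeisLiftStatement.{u}) (hheisU : CuspSumZeroStatement.{u})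
    (hC1 : TOrbitSystemExistsStatement) (hC2 : TOrbitCuspStatement)
    (hC3 : CuspSumIndepStatement.{u}) (hC4 : CuspSystemConjDeltaStatement) :
    PDHeckeStatement.{u} :=
  pdHecke_of_pd (pd_of_leaves hLA1 hLA2 hLA3 hD1 hD2 hD2' hlin hD3 hD3' hD4 hTR1 hTR2 hTR3 hTR4
    hheis hheisU hC1 hC2 hC3 hC4)

end Fermat.Agent.S41.H462
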